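/-
helper53 (P-H1, row 762 H1-RANK): the lattice of integral parabolic classes of `Γ₀(N)` has rank
at least `2 g`, `g = dim S₂(Γ₀(N))`.

Proof: by Eichler–Shimura (S21) the space of complex parabolic classes has dimension `2 g`;
every complex parabolic class `v` is a complex combination of integral ones (its image is a
finitely generated subgroup of `(ℂ, +)`, hence free over `ℤ`, and the coordinates of `v` in a
`ℤ`-basis of the image are integral parabolic classes), so the complex space is spanned by the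
casts of a `ℤ`-basis of the lattice.
-/
import Fermat.Agent.H63.H1.Interfaces
import Fermat.Agent.S21

set_option autoImplicit false

open CongruenceSubgroup ModularCurve ModularCurve.Period Module
open scoped MatrixGroups

namespace Fermat.Agent.H53

section Abstract

variable {Γ : Subgroup SL(2, ℤ)}

/-- The cast of an integral class to a complex class, as a `ℤ`-linear map. -/
noncomputable def h1CastL (Γ : Subgroup SL(2, ℤ)) :
    (Additive Γ →+ ℤ) →ₗ[ℤ] (Additive Γ →+ ℂ) where
  toFun φ := (Int.castAddHom ℂ).comp φ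
  map_add' φ ψ := by
    refine AddMonoidHom.ext fun g => ?_
    simp
  map_smul' n φ := by
    refine AddMonoidHom.ext fun g => ?_
    simp

@[simp]
theorem h1CastL_apply (φ : Additive Γ →+ ℤ) (g : Additive Γ) :
    h1CastL Γ φ g = ((φ g : ℤ) : ℂ) := rfl

theorem h1CastL_mem_parabolicHoms {φ : Additive Γ →+ ℤ} (hφ : φ ∈ parabolicHoms ℤ Γ ℤ) :
    h1CastL Γ φ ∈ parabolicHoms ℂ Γ ℂ := by
  intro γ hγ
  rw [h1CastL_apply, hφ γ hγ, Int.cast_zero]

/-- Integer-valued homomorphisms on a finitely generated group form a finitely generated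
`ℤ`-module. -/
theorem h1_finite_hom_int (G : Type) [Group G] [hG : Group.FG G] :
    Module.Finite ℤ (Additive G →+ ℤ) := by
  classical
  obtain ⟨s, hs⟩ := (Group.fg_iff.mp hG)
  obtain ⟨s, hs, hsfin⟩ := s, hs.1, hs.2
  have : Finite s := hsfin
  let r : (Additive G →+ ℤ) →ₗ[ℤ] (s → ℤ) :=
    { toFun := fun ψ g => ψ (Additive.ofMul (g : G))
      map_add' := fun ψ φ => rfl
      map_smul' := fun a ψ => rfl }
  have hr : Function.Injective r := by
    intro ψ φ h
    have hag : ∀ g ∈ s, ψ (Additive.ofMul g) = φ (Additive.ofMul g) := fun g hg =>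
      congrFun h ⟨g, hg⟩
    have hcl : ∀ g ∈ Subgroup.closure s, ψ (Additive.ofMul g) = φ (Additive.ofMul g) := by
      intro g hg
      induction hg using Subgroup.closure_induction with
      | mem x hx => exact hag x hx
      | one => rw [ofMul_one, map_zero, map_zero]
      | mul x y _ _ hx hy => rw [ofMul_mul, map_add, map_add, hx, hy]
      | inv x _ hx => rw [ofMul_inv, map_neg, map_neg, hx]
    refine AddMonoidHom.ext fun g => ?_
    obtain ⟨g, rfl⟩ := Additive.ofMul.surjective g
    exact hcl g (hs ▸ Subgroup.mem_top g)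
  exact Module.Finite.of_injective r hr

theorem h1Lat_finite (Γ : Subgroup SL(2, ℤ)) [Group.FG Γ] :
    Module.Finite ℤ ↥(parabolicHoms ℤ Γ ℤ) := by
  have := h1_finite_hom_int ↥Γ
  exact Module.Finite.of_injective (parabolicHoms ℤ Γ ℤ).subtype
    (Submodule.injective_subtype _)

theorem h1Lat_isTorsionFree (Γ : Subgroup SL(2, ℤ)) :
    Module.IsTorsionFree ℤ ↥(parabolicHoms ℤ Γ ℤ) := by
  have : Module.IsTorsionFree ℤ (Additive ↥Γ →+ ℤ) := by
    refine Function.Injective.moduleIsTorsionFree (R := ℤ) (N := ↥Γ → ℤ)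
      (fun ψ : Additive ↥Γ →+ ℤ => fun g => ψ (Additive.ofMul g)) ?_ (fun _ _ => rfl)
    intro ψ φ h
    refine AddMonoidHom.ext fun g => ?_
    obtain ⟨g, rfl⟩ := Additive.ofMul.surjective g
    exact congrFun h g
  exact Function.Injective.moduleIsTorsionFree (R := ℤ)
    (fun x : ↥(parabolicHoms ℤ Γ ℤ) => (x : Additive ↥Γ →+ ℤ)) Subtype.val_injective
    (fun _ _ => rfl)

theorem h1Lat_free (Γ : Subgroup SL(2, ℤ)) [Group.FG Γ] :
    Module.Free ℤ ↥(parabolicHoms ℤ Γ ℤ) := by
  have := h1Lat_finite Γ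
  have := h1Lat_isTorsionFree Γ
  infer_instance

/-- The complex span of the casts of the integral parabolic classes. -/
noncomputable def h1CastSpan (Γ : Subgroup SL(2, ℤ)) : Submodule ℂ (Additive Γ →+ ℂ) :=
  Submodule.span ℂ ((h1CastL Γ) '' (parabolicHoms ℤ Γ ℤ : Set (Additive Γ →+ ℤ)))

/-- Every complex parabolic class is a complex combination of casts of integral parabolic
classes. -/
theorem parabolicHoms_le_h1CastSpan (Γ : Subgroup SL(2, ℤ)) [Group.FG Γ] :
    parabolicHoms ℂ Γ ℂ ≤ h1CastSpan Γ := by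
  classical
  intro v hv
  have hfgA : AddGroup.FG (Additive Γ) := inferInstance
  have hfgR : AddGroup.FG v.range := inferInstance
  have : Module.Finite ℤ v.range := Module.Finite.iff_addGroup_fg.mpr hfgR
  have : Module.IsTorsionFree ℤ v.range :=
    Function.Injective.moduleIsTorsionFree (R := ℤ) (fun x : v.range => (x : ℂ))
      Subtype.val_injective (fun _ _ => rfl)
  have : Module.Free ℤ v.range := inferInstance
  let bv := Module.finBasis ℤ v.range
  -- the coordinates
  let c : Fin (finrank ℤ v.range) → (Additive Γ →+ ℤ) := fun j =>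
    ((bv.coord j).toAddMonoidHom).comp v.rangeRestrict
  have hc : ∀ j, c j ∈ parabolicHoms ℤ Γ ℤ := by
    intro j γ hγ
    have h0 : v.rangeRestrict (Additive.ofMul γ) = 0 := by
      apply Subtype.ext
      exact hv γ hγ
    show (bv.coord j) (v.rangeRestrict (Additive.ofMul γ)) = 0
    rw [h0, map_zero]
  have hv_eq : v = ∑ j, ((bv j : v.range) : ℂ) • h1CastL Γ (c j) := by
    refine AddMonoidHom.ext fun g => ?_
    have h1 := bv.sum_repr (v.rangeRestrict g)
    have h2 : ((v.rangeRestrict g : v.range) : ℂ) = v g := rfl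
    rw [← h2, ← h1]
    simp only [AddSubgroup.val_finsetSum, AddMonoidHom.finsetSum_apply]
    refine Finset.sum_congr rfl fun j _ => ?_
    show (((bv.repr (v.rangeRestrict g) j) • bv j : v.range) : ℂ)
      = ((bv j : v.range) : ℂ) • ((bv.coord j (v.rangeRestrict g) : ℤ) : ℂ)
    rw [AddSubgroup.coe_zsmul, zsmul_eq_mul, smul_eq_mul, Basis.coord_apply, mul_comm]
  rw [hv_eq]
  refine Submodule.sum_mem _ fun j _ => Submodule.smul_mem _ _ ?_
  exact Submodule.subset_span ⟨c j, hc j, rfl⟩

/-- The complex span of the casts is spanned by the casts of a `ℤ`-basis of the lattice. -/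
theorem h1CastSpan_eq_span_basis (Γ : Subgroup SL(2, ℤ)) {ι : Type*}
    (b : Basis ι ℤ ↥(parabolicHoms ℤ Γ ℤ)) :
    h1CastSpan Γ = Submodule.span ℂ (Set.range fun i => h1CastL Γ (b i : Additive Γ →+ ℤ)) := by
  classical
  refine le_antisymm ?_ ?_
  · refine Submodule.span_le.mpr ?_
    rintro _ ⟨φ, hφ, rfl⟩
    have h1 := b.linearCombination_repr ⟨φ, hφ⟩
    have h2 : φ = ((⟨φ, hφ⟩ : ↥(parabolicHoms ℤ Γ ℤ)) : Additive Γ →+ ℤ) := rfl
    rw [h2, ← h1, Finsupp.linearCombination_apply, Finsupp.sum]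
    rw [Submodule.coe_sum, map_sum]
    refine Submodule.sum_mem _ fun i _ => ?_
    rw [Submodule.coe_smul, map_smul]
    rw [← Int.cast_smul_eq_zsmul ℂ]
    exact Submodule.smul_mem _ _ (Submodule.subset_span ⟨i, rfl⟩)
  · refine Submodule.span_mono ?_
    rintro _ ⟨i, rfl⟩
    exact ⟨(b i : Additive Γ →+ ℤ), (b i).2, rfl⟩

/-- The dimension of the complex parabolic classes is at most the rank of the lattice. -/
theorem finrank_parabolicHoms_le_lattice (Γ : Subgroup SL(2, ℤ)) [Group.FG Γ] :
    Module.Finite ℂ ↥(parabolicHoms ℂ Γ ℂ) ∧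
      finrank ℂ ↥(parabolicHoms ℂ Γ ℂ) ≤ finrank ℤ ↥(parabolicHoms ℤ Γ ℤ) := by
  classical
  have := h1Lat_finite Γ
  have := h1Lat_free Γ
  let b := Module.finBasis ℤ ↥(parabolicHoms ℤ Γ ℤ)
  have hle := parabolicHoms_le_h1CastSpan Γ
  rw [h1CastSpan_eq_span_basis Γ b] at hle
  have hfin : Module.Finite ℂ ↥(Submodule.span ℂ
      (Set.range fun i => h1CastL Γ (b i : Additive Γ →+ ℤ))) :=
    FiniteDimensional.span_of_finite ℂ (Set.finite_range _)
  refine ⟨Submodule.finiteDimensional_of_le hle, ?_⟩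
  calc finrank ℂ ↥(parabolicHoms ℂ Γ ℂ)
      ≤ finrank ℂ ↥(Submodule.span ℂ
          (Set.range fun i => h1CastL Γ (b i : Additive Γ →+ ℤ))) :=
        Submodule.finrank_mono hle
    _ ≤ Fintype.card (Fin (finrank ℤ ↥(parabolicHoms ℤ Γ ℤ))) := finrank_range_le_card _
    _ = finrank ℤ ↥(parabolicHoms ℤ Γ ℤ) := Fintype.card_fin _

end Abstract

/-- `Γ₀(N)` is finitely generated. -/
theorem h1_gamma0_fg (N : ℕ) [NeZero N] : Group.FG ↥(Gamma0 N) := by
  have : Group.FG SL(2, ℤ) :=
    Group.fg_iff.mpr ⟨{ModularGroup.S, ModularGroup.T}, SpecialLinearGroup.SL2Z_generators,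
      by simp⟩
  exact Subgroup.fg_of_index_ne_zero _

/-- **H1-RANK** (row 762): `2 g ≤ rank_ℤ Hom_par(Γ₀(N), ℤ)`. -/
theorem latticeRankStatement : Fermat.Agent.H63.H1.LatticeRankStatement := by
  intro N _
  have := h1_gamma0_fg N
  obtain ⟨hinj, hrange⟩ := Fermat.Agent.S21.result N
  obtain ⟨hfin, hle⟩ := finrank_parabolicHoms_le_lattice (Gamma0 N)
  have hfinR : Module.Finite ℂ (LinearMap.range (ModularCurve.periodHomPair N)) := by
    rw [hrange]; exact hfin
  have hfinX : Module.Finite ℂ (CuspForm (Gamma0 N) 2 × CuspForm (Gamma0 N) 2) :=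
    Module.Finite.of_injective (ModularCurve.periodHomPair N).rangeRestrict
      (by
        intro a b hab
        apply hinj
        exact congrArg Subtype.val hab)
  have hfinS : Module.Finite ℂ (CuspForm (Gamma0 N) 2) :=
    Module.Finite.of_injective
      (LinearMap.inl ℂ (CuspForm (Gamma0 N) 2) (CuspForm (Gamma0 N) 2)) LinearMap.inl_injective
  have h1 : finrank ℂ (LinearMap.range (ModularCurve.periodHomPair N))
      = 2 * finrank ℂ (CuspForm (Gamma0 N) 2) := by
    rw [LinearMap.finrank_range_of_inj hinj, Module.finrank_prod]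
    ring
  have h2 : finrank ℂ (LinearMap.range (ModularCurve.periodHomPair N))
      = finrank ℂ ↥(parabolicHoms ℂ (Gamma0 N) ℂ) := by
    rw [hrange]
  show 2 * finrank ℂ (CuspForm (Gamma0 N) 2) ≤ _
  rw [← h1, h2]
  exact hle

end Fermat.Agent.H53
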